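/-
S56 [GW-EC] sub-cell [EC-H2LOW] / (LDG), local part (helper5; prefix `s56e2d_`).

A finite extension `K` of `ℚ_q` (inside `PadicAlgCl q`) containing a primitive `p ^ (r + 1)`-th
root of unity has degree `n` with `p ^ r ≤ q ^ n`:
* `q ≠ p`: reduction is injective on `μ_{p^∞}`, so `p ^ (r + 1) ∣ q ^ f - 1` (`f ∣ n`);
* `q = p`: `p = ∏ (1 - μ)` over the primitive roots, all factors having the same norm, so
  `φ(p ^ (r + 1)) ∣ e` (`e ∣ n`).
-/
import Fermat.Agent.S55.LocalQ.UnramExt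
import Fermat.Agent.S55.LocalQ.Integers

set_option autoImplicit false

open scoped Valued NormedField NNReal

namespace Fermat.Agent.S56

open Fermat.Agent.S55

variable {q : ℕ} [Fact q.Prime]

noncomputable section

/-- For a primitive `n`-th root of unity `ζ` and any `n`-th root of unity `μ`,
`‖1 - μ‖ ≤ ‖1 - ζ‖`. -/
theorem s56e2d_norm_one_sub_le (K : LqField q) {n : ℕ} (hn : 0 < n) {ζ μ : K}
    (hζ : IsPrimitiveRoot ζ n) (hμ : μ ^ n = 1) : ‖1 - μ‖ ≤ ‖1 - ζ‖ := by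
  have : NeZero n := ⟨hn.ne'⟩
  obtain ⟨i, -, rfl⟩ := hζ.eq_pow_of_pow_eq_one hμ
  have hζ1 : ‖ζ‖ = 1 := lqu_norm_eq_one_of_pow_eq_one K hn hζ.pow_eq_one
  have h := geom_sum_mul ζ i
  have h2 : 1 - ζ ^ i = (∑ j ∈ Finset.range i, ζ ^ j) * (1 - ζ) := by
    linear_combination h
  rw [h2, norm_mul]
  have hle : ‖∑ j ∈ Finset.range i, ζ ^ j‖ ≤ 1 := by
    refine IsUltrametricDist.norm_sum_le_of_forall_le_of_nonneg zero_le_one fun j _ => ?_
    rw [norm_pow, hζ1, one_pow]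
  exact mul_le_of_le_one_left (norm_nonneg _) hle

/-- `p = ∏ (1 - μ)` over the primitive `p ^ (r + 1)`-th roots of unity. -/
theorem s56e2d_prod_one_sub (K : LqField q) {p r : ℕ} [Fact p.Prime] {ζ : K}
    (hζ : IsPrimitiveRoot ζ (p ^ (r + 1))) :
    (p : K) = ∏ μ ∈ primitiveRoots (p ^ (r + 1)) K, (1 - μ) := by
  have h1 := Polynomial.cyclotomic_eq_prod_X_sub_primitiveRoots hζ
  have h2 := Polynomial.eval_one_cyclotomic_prime_pow (R := K) (p := p) r
  rw [h1, Polynomial.eval_prod] at h2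
  simp only [Polynomial.eval_sub, Polynomial.eval_X, Polynomial.eval_C] at h2
  exact h2.symm

/-- `‖p‖ = ‖1 - ζ‖ ^ φ(p ^ (r + 1))`. -/
theorem s56e2d_norm_prime (K : LqField q) {p r : ℕ} [Fact p.Prime] {ζ : K}
    (hζ : IsPrimitiveRoot ζ (p ^ (r + 1))) :
    ‖(p : K)‖ = ‖1 - ζ‖ ^ Nat.totient (p ^ (r + 1)) := by
  have hpos : 0 < p ^ (r + 1) := pow_pos (Fact.out : p.Prime).pos _
  rw [s56e2d_prod_one_sub K hζ, norm_prod, Finset.prod_eq_pow_card (b := ‖1 - ζ‖),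
    hζ.card_primitiveRoots]
  intro μ hμ
  have hμ' : IsPrimitiveRoot μ (p ^ (r + 1)) := (mem_primitiveRoots hpos).1 hμ
  exact le_antisymm (s56e2d_norm_one_sub_le K hpos hζ hμ'.pow_eq_one)
    (s56e2d_norm_one_sub_le K hpos hμ' hζ.pow_eq_one)

/-- **Case `p = q`.**  `q ^ r ≤ [K : ℚ_q]` if `K` contains a primitive `q ^ (r + 1)`-th root of
unity. -/
theorem s56e2d_local_eq (K : LqField q) [FiniteDimensional ℚ_[q] K] {r : ℕ} {ζ : K}
    (hζ : IsPrimitiveRoot ζ (q ^ (r + 1))) : q ^ r ≤ Module.finrank ℚ_[q] K := by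
  have hq : q.Prime := Fact.out
  have hnorm := s56e2d_norm_prime K hζ
  have hlt : ‖(q : K)‖ < 1 := lqu_norm_prime_lt_one K
  have hφ : 0 < Nat.totient (q ^ (r + 1)) := Nat.totient_pos.2 (pow_pos hq.pos _)
  -- `‖1 - ζ‖ < 1`
  have h1 : ‖1 - ζ‖ < 1 := by
    by_contra hge
    rw [not_lt] at hge
    have := one_le_pow₀ (n := Nat.totient (q ^ (r + 1))) hge
    rw [← hnorm] at this
    exact absurd hlt (not_lt.2 this)
  have hne : (1 : K) - ζ ≠ 0 := by
    intro h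
    have hζ1 : ζ = 1 := (sub_eq_zero.1 h).symm
    have hone : 1 < q ^ (r + 1) := Nat.one_lt_pow (Nat.succ_ne_zero r) hq.one_lt
    exact hζ.ne_one hone hζ1
  -- `ord (1 - ζ) ≥ 1`
  have hm0 : 0 ≤ lq_ordZ K (1 - ζ) := (lq_ordZ_nonneg_iff K hne).2 h1.le
  have hm1 : lq_ordZ K (1 - ζ) ≠ 0 := fun h => h1.ne ((lq_ordZ_eq_zero_iff K hne).1 h)
  have hm : 1 ≤ lq_ordZ K (1 - ζ) := by omega
  -- `ord q = φ · ord (1 - ζ)`
  have hord : lq_ordZ K ((q : ℕ) : K) =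
      lq_ordZ K (1 - ζ) * (Nat.totient (q ^ (r + 1)) : ℤ) := by
    apply lq_ordZ_eq_of_norm_eq K (lq_natCast_ne_zero K)
    rw [hnorm, lq_ordZ_spec K hne, zpow_mul, zpow_natCast]
  have he : (Nat.totient (q ^ (r + 1)) : ℤ) ≤ (lq_eAbs K : ℤ) := by
    rw [lq_eAbs_cast, hord]
    have : (0 : ℤ) ≤ (Nat.totient (q ^ (r + 1)) : ℤ) := Int.natCast_nonneg _
    nlinarith
  have he' : Nat.totient (q ^ (r + 1)) ≤ lq_eAbs K := by exact_mod_cast he
  have hef := lq_e_mul_f K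
  have hfpos : 0 < lq_fAbs K := by
    by_contra h
    have h0 : lq_fAbs K = 0 := by omega
    rw [h0, mul_zero] at hef
    exact absurd hef.symm (Module.finrank_pos (R := ℚ_[q]) (M := K)).ne'
  have h2 : lq_eAbs K ≤ Module.finrank ℚ_[q] K := by
    rw [← hef]
    exact Nat.le_mul_of_pos_right _ hfpos
  have h3 : q ^ r ≤ Nat.totient (q ^ (r + 1)) := by
    rw [Nat.totient_prime_pow_succ hq]
    exact Nat.le_mul_of_pos_right _ (Nat.sub_pos_of_lt hq.one_lt)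
  exact h3.trans (he'.trans h2)

/-- **Case `p ≠ q`.**  `p ^ (r + 1) < q ^ [K : ℚ_q]` if `K` contains a primitive
`p ^ (r + 1)`-th root of unity. -/
theorem s56e2d_local_ne (K : LqField q) [FiniteDimensional ℚ_[q] K] {p r : ℕ} (hp : p.Prime)
    (hpq : p ≠ q) {ζ : K} (hζ : IsPrimitiveRoot ζ (p ^ (r + 1))) :
    p ^ (r + 1) < q ^ Module.finrank ℚ_[q] K := by
  have hq : q.Prime := Fact.out
  have hpos : 0 < p ^ (r + 1) := pow_pos hp.pos _
  have hcop : (p ^ (r + 1)).Coprime q :=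
    Nat.Coprime.pow_left _ ((Nat.coprime_primes hp hq).2 hpq)
  have hn1 : ‖((p ^ (r + 1) : ℕ) : K)‖ = 1 := by
    rw [lqu_norm_natCast]
    exact (Padic.norm_natCast_eq_one_iff).2 hcop.symm
  have hdvd := lqu_dvd_resCard_sub_one K hpos hn1 hζ
  rw [lq_resCard_eq] at hdvd
  have hef := lq_e_mul_f K
  have hfle : lq_fAbs K ≤ Module.finrank ℚ_[q] K := by
    rw [← hef]
    exact Nat.le_mul_of_pos_left _ (lq_eAbs_pos K)
  have hres : 2 ≤ q ^ lq_fAbs K := by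
    rw [← lq_resCard_eq]
    have : 1 < Nat.card 𝓀[K] := Finite.one_lt_card
    exact this
  have h1 : p ^ (r + 1) ≤ q ^ lq_fAbs K - 1 := Nat.le_of_dvd (by omega) hdvd
  have h2 : q ^ lq_fAbs K ≤ q ^ Module.finrank ℚ_[q] K := Nat.pow_le_pow_right hq.pos hfle
  omega

/-- **The local degree bound**, uniformly: `p ^ r ≤ q ^ [K : ℚ_q]` if `K` contains a primitive
`p ^ (r + 1)`-th root of unity. -/
theorem s56e2d_local (K : LqField q) [FiniteDimensional ℚ_[q] K] {p r : ℕ} (hp : p.Prime)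
    {ζ : K} (hζ : IsPrimitiveRoot ζ (p ^ (r + 1))) :
    p ^ r ≤ q ^ Module.finrank ℚ_[q] K := by
  have hq : q.Prime := Fact.out
  by_cases hpq : p = q
  · subst hpq
    exact (s56e2d_local_eq K hζ).trans (Nat.lt_pow_self hp.one_lt).le
  · have h := s56e2d_local_ne K hp hpq hζ
    have : p ^ r ≤ p ^ (r + 1) := Nat.pow_le_pow_right hp.pos (Nat.le_succ r)
    omega

end

end Fermat.Agent.S56
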