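/-
S56 [GW-EC] sub-cell [EC-H2LOW] / (LDG) (helper5; prefix `s56e2d_`): growth of the local degrees.

`s56e2d_main : s56e2_LDG_stmt` (no hypothesis `p ≠ 2`).  For a level `K` of `du_Lev S` (`p ∈ S`)
put `a := K(μ_{p^(r+1)})`, again a level of `du_Lev S`.  For every `q`:
* `|D_q(a)| = |N| · |D_q(K)|`, `N` the kernel of `D_q(a) → D_q(K)`;
* `N ≤ Gal(a/K)` is a `p`-group: an automorphism fixing `μ_p ⊆ K` acts on `μ_{p^(r+1)}` through
  `u ≡ 1 mod p`, and `u ^ (p ^ r) ≡ 1 mod p ^ (r + 1)`;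
* `p ^ r ≤ q ^ |D_q(a)|` by the local bound of `LDG/Local.lean`
  (`|D_q(a)| = [a·ℚ_q : ℚ_q]`, and `a·ℚ_q` contains a primitive `p ^ (r + 1)`-th root of unity).
For `r` large (uniformly in the finitely many `q ∈ S`) this forces `p ^ k ∣ |N|`.
-/
import Fermat.Agent.S56.GW.EC.H2Low.Seams
import Fermat.Agent.S56.GW.EC.H2Low.LDG.Local
import Fermat.Agent.S55.Idele.Seam
import Fermat.Agent.S55.Recip.ZetaLevel
import Fermat.Agent.S55.Dual.Levels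

set_option autoImplicit false

open CategoryTheory groupCohomology ExtCitation

namespace Fermat.Agent.S56

open Fermat.Agent.S55

local notation "Qbar" => AlgebraicClosure ℚ
local notation "GQ" => (AlgebraicClosure ℚ ≃ₐ[ℚ] AlgebraicClosure ℚ)

noncomputable section

variable {S : Finset Nat.Primes}

/-! ### The cyclotomic step -/

/-- An automorphism fixing the `p`-th roots of unity has its `p ^ r`-th power fixing the
`p ^ (r + 1)`-th roots of unity (any prime `p`, including `2`). -/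
theorem s56e2d_pow_fix {p : ℕ} (hp : p.Prime) (σ : GQ) (hσ : ∀ x : Qbar, x ^ p = 1 → σ x = x)
    (r : ℕ) (y : Qbar) (hy : y ^ (p ^ (r + 1)) = 1) : (σ ^ (p ^ r)) y = y := by
  have hn0 : p ^ (r + 1) ≠ 0 := pow_ne_zero _ hp.ne_zero
  have : NeZero (p ^ (r + 1)) := ⟨hn0⟩
  obtain ⟨ζ, hζ⟩ := HasEnoughRootsOfUnity.exists_primitiveRoot Qbar (p ^ (r + 1))
  have hσζ : (σ ζ) ^ (p ^ (r + 1)) = 1 := by rw [← map_pow, hζ.pow_eq_one, map_one]
  obtain ⟨u, -, hu⟩ := hζ.eq_pow_of_pow_eq_one hσζ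
  have hpow : ∀ m : ℕ, (σ ^ m) ζ = ζ ^ (u ^ m) := by
    intro m
    induction m with
    | zero => simp
    | succ m ih =>
      rw [pow_succ', AlgEquiv.mul_apply, ih, map_pow, ← hu, ← pow_mul, ← pow_succ']
  have hfin : IsOfFinOrder ζ :=
    isOfFinOrder_iff_pow_eq_one.2 ⟨p ^ (r + 1), Nat.pos_of_ne_zero hn0, hζ.pow_eq_one⟩
  have hord : orderOf ζ = p ^ (r + 1) := hζ.eq_orderOf.symm
  have hfix : σ (ζ ^ (p ^ r)) = ζ ^ (p ^ r) :=
    hσ _ (by rw [← pow_mul, ← pow_succ, hζ.pow_eq_one])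
  rw [map_pow, ← hu, ← pow_mul] at hfix
  have h1 : u * p ^ r ≡ 1 * p ^ r [MOD p * p ^ r] := by
    rw [one_mul, ← pow_succ', ← hord]
    exact hfin.pow_eq_pow_iff_modEq.1 hfix
  have h2 : u ≡ 1 [MOD p] := Nat.ModEq.mul_right_cancel' (pow_ne_zero r hp.ne_zero) h1
  have h3 : ((p : ℕ) : ℤ) ∣ (u : ℤ) - 1 := by
    have := Nat.modEq_iff_dvd.1 h2.symm
    simpa using this
  have h4 := dvd_sub_pow_of_dvd_sub h3 r
  have h5 : u ^ p ^ r ≡ 1 [MOD p ^ (r + 1)] := by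
    apply Nat.ModEq.symm
    rw [Nat.modEq_iff_dvd]
    push_cast
    simpa using h4
  have h6 : (σ ^ (p ^ r)) ζ = ζ := by
    rw [hpow]
    conv_rhs => rw [← pow_one ζ]
    rw [hfin.pow_eq_pow_iff_modEq, hord]
    exact h5
  obtain ⟨i, -, rfl⟩ := hζ.eq_pow_of_pow_eq_one hy
  rw [map_pow, h6]

/-! ### The level `K(μ_n)` -/

/-- The level `K(μ_n)`, for `n ≠ 0` with all prime divisors in `S`. -/
def s56e2d_lev (K : du_Lev S) (n : ℕ) (hn0 : n ≠ 0)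
    (hn : ∀ q : Nat.Primes, (q : ℕ) ∣ n → q ∈ S) : du_Lev S where
  L := K.L ⊔ IntermediateField.adjoin ℚ (rc_zl_mu n)
  unr := ku_isUnramifiedOutside_sup_adjoin_of_fixed K.unr (rc_zl_mu_finite hn0)
    (fun ℓ hℓ A hA σ hσ y hy => rc_zl_inertia_fixes_mu hn0 hn ℓ hℓ A hA σ hσ y hy)
  nor := @IntermediateField.normal_sup ℚ Qbar _ _ _ K.L (IntermediateField.adjoin ℚ (rc_zl_mu n))
    K.nor (rc_zl_normal_adjoin n)
  cyc := le_trans K.cyc (le_sup_left (α := IntermediateField ℚ Qbar))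

theorem s56e2d_le_lev (K : du_Lev S) (n : ℕ) (hn0 : n ≠ 0)
    (hn : ∀ q : Nat.Primes, (q : ℕ) ∣ n → q ∈ S) : K ≤ s56e2d_lev K n hn0 hn :=
  le_sup_left (α := IntermediateField ℚ Qbar)

theorem s56e2d_mem_lev (K : du_Lev S) (n : ℕ) (hn0 : n ≠ 0)
    (hn : ∀ q : Nat.Primes, (q : ℕ) ∣ n → q ∈ S) {x : Qbar} (hx : x ^ n = 1) :
    x ∈ (s56e2d_lev K n hn0 hn).L :=
  (le_sup_right (α := IntermediateField ℚ Qbar) :
    IntermediateField.adjoin ℚ (rc_zl_mu n) ≤ (s56e2d_lev K n hn0 hn).L)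
    (IntermediateField.subset_adjoin ℚ _ hx)

/-- An automorphism fixing `K` and the `n`-th roots of unity fixes `K(μ_n)`. -/
theorem s56e2d_mem_fixing_lev (K : du_Lev S) (n : ℕ) (hn0 : n ≠ 0)
    (hn : ∀ q : Nat.Primes, (q : ℕ) ∣ n → q ∈ S) (σ : GQ) (h1 : σ ∈ K.L.fixingSubgroup)
    (h2 : ∀ y : Qbar, y ^ n = 1 → σ y = y) : σ ∈ (s56e2d_lev K n hn0 hn).L.fixingSubgroup := by
  show σ ∈ (K.L ⊔ IntermediateField.adjoin ℚ (rc_zl_mu n)).fixingSubgroup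
  rw [IntermediateField.fixingSubgroup_sup]
  exact ⟨h1, ku_mem_fixingSubgroup_adjoin (fun y hy => h2 y hy)⟩

/-! ### The local degree -/

/-- `|D_q(a)| = [a·ℚ_q : ℚ_q]`. -/
theorem s56e2d_card_D (a : du_Lev S) (q : Nat.Primes) :
    Nat.card ↥(a.D q) = Module.finrank ℚ_[(q : ℕ)] ↥(il_Lq (q : ℕ) a.L) := by
  rw [← id_levD_eq a q, ← Nat.card_congr (il_galEquiv (q : ℕ) a.L).toEquiv,
    IsGalois.card_aut_eq_finrank]

/-- A level containing a primitive `p ^ (r + 1)`-th root of unity has `p ^ r ≤ q ^ |D_q|`. -/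
theorem s56e2d_card_ge (a : du_Lev S) (q : Nat.Primes) {p : ℕ} (hp : p.Prime) (r : ℕ)
    (ha : ∀ y : Qbar, y ^ (p ^ (r + 1)) = 1 → y ∈ a.L) :
    p ^ r ≤ (q : ℕ) ^ Nat.card ↥(a.D q) := by
  have hn0 : p ^ (r + 1) ≠ 0 := pow_ne_zero _ hp.ne_zero
  have : NeZero (p ^ (r + 1)) := ⟨hn0⟩
  obtain ⟨ζ, hζ⟩ := HasEnoughRootsOfUnity.exists_primitiveRoot Qbar (p ^ (r + 1))
  have hζ₁ : IsPrimitiveRoot (⟨ζ, ha ζ hζ.pow_eq_one⟩ : ↥a.L) (p ^ (r + 1)) := by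
    refine IsPrimitiveRoot.of_map_of_injective (f := a.L.val) ?_ a.L.val.injective
    exact hζ
  have hζ₂ : IsPrimitiveRoot (il_embLq (q : ℕ) a.L ⟨ζ, ha ζ hζ.pow_eq_one⟩) (p ^ (r + 1)) :=
    hζ₁.map_of_injective (il_embLq_injective (q : ℕ) a.L)
  rw [s56e2d_card_D]
  exact s56e2d_local (il_Lq (q : ℕ) a.L) hp hζ₂

/-! ### The kernel of `D_q(a) → D_q(K)` -/

/-- The restriction `D_q(a) → Γ_K`. -/
def s56e2d_resD {K a : du_Lev S} (h : K ≤ a) (q : Nat.Primes) : ↥(a.D q) →* K.Γ :=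
  (du_Lev.res h).comp (a.D q).subtype

theorem s56e2d_range_resD {K a : du_Lev S} (h : K ≤ a) (q : Nat.Primes) :
    (s56e2d_resD h q).range = K.D q := by
  ext g
  constructor
  · rintro ⟨⟨x, τ, rfl⟩, rfl⟩
    show du_Lev.res h (a.q (primeLocalToGlobal q τ)) ∈ K.D q
    rw [du_Lev.res_q]
    exact ⟨τ, rfl⟩
  · rintro ⟨τ, rfl⟩
    refine ⟨⟨a.q (primeLocalToGlobal q τ), ⟨τ, rfl⟩⟩, ?_⟩
    show du_Lev.res h (a.q (primeLocalToGlobal q τ)) = _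
    rw [du_Lev.res_q]
    rfl

/-- `|D_q(a)| = |ker| · |D_q(K)|`. -/
theorem s56e2d_card_mul {K a : du_Lev S} (h : K ≤ a) (q : Nat.Primes) :
    Nat.card ↥(a.D q) = Nat.card ↥(s56e2d_resD h q).ker * Nat.card ↥(K.D q) := by
  rw [← s56e2d_range_resD h q, ← Subgroup.index_ker, Subgroup.card_mul_index]

/-- For `a = K(μ_{p^(r+1)})`, the kernel of `D_q(a) → D_q(K)` is a `p`-group. -/
theorem s56e2d_ker_isPGroup {p : ℕ} [Fact p.Prime] (hpS : pPrime p ∈ S) (K : du_Lev S) (r : ℕ)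
    (hn0 : p ^ (r + 1) ≠ 0) (hn : ∀ q : Nat.Primes, (q : ℕ) ∣ p ^ (r + 1) → q ∈ S)
    (q : Nat.Primes) :
    IsPGroup p ↥(s56e2d_resD (s56e2d_le_lev K (p ^ (r + 1)) hn0 hn) q).ker := by
  have hp : p.Prime := Fact.out
  intro x
  refine ⟨r, ?_⟩
  have hx : ((x : ↥((s56e2d_lev K (p ^ (r + 1)) hn0 hn).D q)) :
      (s56e2d_lev K (p ^ (r + 1)) hn0 hn).Γ) ∈
      (du_Lev.res (s56e2d_le_lev K (p ^ (r + 1)) hn0 hn)).ker := x.2
  rw [du_Lev.ker_res] at hx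
  obtain ⟨σ, hσ, hσx⟩ := hx
  have hσp : ∀ y : Qbar, y ^ p = 1 → σ y = y := fun y hy =>
    (IntermediateField.mem_fixingSubgroup_iff _ _).1 hσ y
      (K.pow_eq_one_mem hpS (x := y) hy)
  have hfix : σ ^ (p ^ r) ∈ (s56e2d_lev K (p ^ (r + 1)) hn0 hn).L.fixingSubgroup :=
    s56e2d_mem_fixing_lev K _ hn0 hn _ (pow_mem hσ _)
      (fun y hy => s56e2d_pow_fix hp σ hσp r y hy)
  apply Subtype.ext
  apply Subtype.ext
  show ((x : ↥((s56e2d_lev K (p ^ (r + 1)) hn0 hn).D q)) :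
      (s56e2d_lev K (p ^ (r + 1)) hn0 hn).Γ) ^ (p ^ r) = 1
  rw [← hσx, ← map_pow, du_Lev.q_eq_one_iff]
  exact hfix

/-! ### The growth of the local degrees -/

/-- **(LDG).** -/
theorem s56e2d_main : s56e2_LDG_stmt := by
  intro p _ S hpS K k
  have hp : p.Prime := Fact.out
  classical
  set Q : ℕ := ∏ q ∈ S, (q : ℕ) with hQ
  have hQpos : 0 < Q := Finset.prod_pos (fun q _ => q.2.pos)
  have hqQ : ∀ q ∈ S, (q : ℕ) ≤ Q := fun q hq =>
    Nat.le_of_dvd hQpos (Finset.dvd_prod_of_mem _ hq)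
  set M : ℕ := p ^ k * Nat.card K.Γ with hM
  set r : ℕ := Q ^ M with hr
  have hn0 : p ^ (r + 1) ≠ 0 := pow_ne_zero _ hp.ne_zero
  have hn := rc_zl_hn_primePow (T := S) hpS (r + 1)
  have hle := s56e2d_le_lev K _ hn0 hn
  refine ⟨s56e2d_lev K (p ^ (r + 1)) hn0 hn, hle, ?_⟩
  intro q hq
  have hcard := s56e2d_card_mul hle q
  obtain ⟨j, hj⟩ := (IsPGroup.iff_card).1 (s56e2d_ker_isPGroup hpS K r hn0 hn q)
  rw [hj] at hcard
  have hge := s56e2d_card_ge (s56e2d_lev K (p ^ (r + 1)) hn0 hn) q hp r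
    (fun y hy => s56e2d_mem_lev K _ hn0 hn hy)
  have hjk : k ≤ j := by
    by_contra hlt
    rw [not_le] at hlt
    have hDK : Nat.card ↥(K.D q) ≤ Nat.card K.Γ := Subgroup.card_le_card_group _
    have h1 : Nat.card ↥((s56e2d_lev K (p ^ (r + 1)) hn0 hn).D q) ≤ M := by
      rw [hcard, hM]
      exact Nat.mul_le_mul (Nat.pow_le_pow_right hp.pos hlt.le) hDK
    have h2 : (q : ℕ) ^ Nat.card ↥((s56e2d_lev K (p ^ (r + 1)) hn0 hn).D q) ≤ r :=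
      (Nat.pow_le_pow_left (hqQ q hq) _).trans (Nat.pow_le_pow_right hQpos h1)
    have h3 : r < p ^ r := Nat.lt_pow_self hp.one_lt
    exact absurd (hge.trans h2) (not_le.2 h3)
  rw [hcard]
  exact Nat.mul_dvd_mul_right (pow_dvd_pow p hjk) _

end

end Fermat.Agent.S56
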